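import Mathlib

/-!
# The three gap theorem

Let `α` be irrational and `N ≥ 2`. The points `kα` modulo `1`, `0 ≤ k < N`, cut the circle into `N`
gaps. The gap after `kα` has the length `gap α N k`, the minimum of the distances
`fract ((j - k) α)` from `kα` to `jα` in the positive direction, `j ≠ k`. These lengths take at most
three values (conjectured by Steinhaus; Sós, Surányi, Świerczkowski 1957/58): `three_gap`.

Proof (Liang): translation by `α` maps a gap to a gap unless it starts or ends at the last point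
`(N - 1)α` or its translate contains the point `0`.
-/

set_option autoImplicit false

namespace Fermat.Agent.Cor.Gap

/-- The distance on the circle `ℝ / ℤ` from `kα` to `jα` in the positive direction. -/
noncomputable def dist (α : ℝ) (k j : ℕ) : ℝ := Int.fract (((j : ℝ) - k) * α)

theorem others_nonempty {N : ℕ} (hN : 2 ≤ N) (k : ℕ) :
    ((Finset.range N).erase k).Nonempty := by
  rcases Nat.eq_zero_or_pos k with rfl | hk
  · exact ⟨1, Finset.mem_erase.2 ⟨one_ne_zero, Finset.mem_range.2 (by omega)⟩⟩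
  · exact ⟨0, Finset.mem_erase.2 ⟨by omega, Finset.mem_range.2 (by omega)⟩⟩

/-- The length of the gap which begins at `kα`: the least distance to another point. -/
noncomputable def gap (α : ℝ) (N k : ℕ) : ℝ :=
  if h : ((Finset.range N).erase k).Nonempty then
    ((Finset.range N).erase k).inf' h (fun j => dist α k j) else 1

variable {α : ℝ} {N : ℕ}

theorem gap_le (hN : 2 ≤ N) {k j : ℕ} (hj : j < N) (hjk : j ≠ k) : gap α N k ≤ dist α k j := by
  rw [gap, dif_pos (others_nonempty hN k)]
  exact Finset.inf'_le _ (Finset.mem_erase.2 ⟨hjk, Finset.mem_range.2 hj⟩)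

theorem exists_next (hN : 2 ≤ N) (k : ℕ) : ∃ j, j < N ∧ j ≠ k ∧ gap α N k = dist α k j := by
  obtain ⟨j, hj, h⟩ := Finset.exists_mem_eq_inf' (others_nonempty hN k) (fun j => dist α k j)
  rw [Finset.mem_erase, Finset.mem_range] at hj
  exact ⟨j, hj.2, hj.1, by rw [gap, dif_pos (others_nonempty hN k), h]⟩

theorem dist_succ (k j : ℕ) : dist α (k + 1) (j + 1) = dist α k j := by
  rw [dist, dist]
  push_cast
  congr 1
  ring

theorem dist_pos (hα : Irrational α) {k j : ℕ} (h : j ≠ k) : 0 < dist α k j := by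
  rw [dist, Int.fract_pos]
  intro h1
  have h2 : ((j : ℤ) - k : ℤ) ≠ 0 := sub_ne_zero.2 (by exact_mod_cast h)
  have h3 : Irrational ((((j : ℤ) - k : ℤ) : ℝ) * α) := hα.intCast_mul h2
  apply h3
  refine ⟨(⌊((j : ℝ) - k) * α⌋ : ℚ), ?_⟩
  push_cast
  exact h1.symm

theorem dist_inj (hα : Irrational α) {k k' j : ℕ} (h : dist α k j = dist α k' j) : k = k' := by
  by_contra hne
  rw [dist, dist, Int.fract_eq_fract] at h
  obtain ⟨z, hz⟩ := h
  have h2 : ((k' : ℤ) - k : ℤ) ≠ 0 := sub_ne_zero.2 (by exact_mod_cast (Ne.symm hne))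
  have h3 : Irrational ((((k' : ℤ) - k : ℤ) : ℝ) * α) := hα.intCast_mul h2
  apply h3
  refine ⟨(z : ℚ), ?_⟩
  push_cast
  linarith

/-- The distances along the circle add up. -/
theorem dist_eq_add {α : ℝ} {i k j : ℕ} (h : dist α k j ≤ dist α i j) :
    dist α i j = dist α i k + dist α k j := by
  have h2 : dist α i k = dist α i j - dist α k j := by
    rw [dist, Int.fract_eq_iff]
    refine ⟨by linarith, ?_, ?_⟩
    · have h3 : dist α i j < 1 := Int.fract_lt_one _
      have h4 : 0 ≤ dist α k j := Int.fract_nonneg _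
      linarith
    · refine ⟨⌊((j : ℝ) - i) * α⌋ - ⌊((j : ℝ) - k) * α⌋, ?_⟩
      have h3 := Int.floor_add_fract (((j : ℝ) - i) * α)
      have h4 := Int.floor_add_fract (((j : ℝ) - k) * α)
      rw [dist, dist]
      push_cast
      linarith
  rw [h2]
  ring

/-- The distances along the circle add up. -/
theorem dist_eq_add' {α : ℝ} {i k j : ℕ} (h : dist α i k ≤ dist α i j) :
    dist α i j = dist α i k + dist α k j := by
  have h2 : dist α k j = dist α i j - dist α i k := by
    rw [dist, Int.fract_eq_iff]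
    refine ⟨by linarith, ?_, ?_⟩
    · have h3 : dist α i j < 1 := Int.fract_lt_one _
      have h4 : 0 ≤ dist α i k := Int.fract_nonneg _
      linarith
    · refine ⟨⌊((j : ℝ) - i) * α⌋ - ⌊((k : ℝ) - i) * α⌋, ?_⟩
      have h3 := Int.floor_add_fract (((j : ℝ) - i) * α)
      have h4 := Int.floor_add_fract (((k : ℝ) - i) * α)
      rw [dist, dist]
      push_cast
      linarith
  rw [h2]
  ring

/-- If `jα` is the point after `kα` and after `k'α` then `k = k'`. -/
theorem prev_unique (hα : Irrational α) (hN : 2 ≤ N) {k k' j : ℕ} (hk : k < N) (hk' : k' < N)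
    (hj : j ≠ k) (hj' : j ≠ k')
    (h : gap α N k = dist α k j) (h' : gap α N k' = dist α k' j) : k = k' := by
  by_contra hne
  -- the closer one lies between the other one and `j`
  have aux : ∀ {k k' : ℕ}, k < N → k ≠ k' → j ≠ k → gap α N k' = dist α k' j →
      dist α k j < dist α k' j → False := by
    intro k k' hk hne hjk h' hlt
    have h1 := gap_le (α := α) hN hk hne
    rw [h', dist_eq_add hlt.le] at h1
    have h5 := dist_pos hα hjk
    linarith
  rcases lt_trichotomy (dist α k j) (dist α k' j) with h1 | h1 | h1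
  · exact aux hk hne hj h' h1
  · exact hne (dist_inj hα h1)
  · exact aux hk' (Ne.symm hne) hj' h h1

/-- The gap after `kα` ends at the last point. -/
def P2 (α : ℝ) (N k : ℕ) : Prop := k < N ∧ k ≠ N - 1 ∧ gap α N k = dist α k (N - 1)

/-- The translate by `α` of the gap after `kα` contains the point `0`. -/
def P3 (α : ℝ) (N k : ℕ) : Prop :=
  k + 1 < N ∧ gap α N (k + 1) = dist α (k + 1) 0 ∧ gap α N (k + 1) < gap α N k ∧
    ∃ j, j + 1 < N ∧ j ≠ k ∧ gap α N k = dist α k j

theorem P2.unique (hα : Irrational α) (hN : 2 ≤ N) {k k' : ℕ} (h : P2 α N k) (h' : P2 α N k') :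
    k = k' :=
  prev_unique hα hN h.1 h'.1 (Ne.symm h.2.1) (Ne.symm h'.2.1) h.2.2 h'.2.2

theorem P3.unique (hα : Irrational α) (hN : 2 ≤ N) {k k' : ℕ} (h : P3 α N k) (h' : P3 α N k') :
    k = k' := by
  have := prev_unique hα hN h.1 h'.1 (by omega) (by omega) h.2.1 h'.2.1
  omega

/-- Translating by `α` leads from every gap to an exceptional one, of the same length. -/
theorem chain (hN : 2 ≤ N) (m : ℕ) : ∀ k, k < N → N - 1 - k = m →
    ∃ k', k ≤ k' ∧ k' < N ∧ (∀ i, k ≤ i → i ≤ k' → gap α N i = gap α N k) ∧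
      (k' = N - 1 ∨ P2 α N k' ∨ P3 α N k') := by
  induction m with
  | zero =>
    intro k hk h
    refine ⟨k, le_rfl, hk, fun i h1 h2 => ?_, Or.inl (by omega)⟩
    rw [show i = k by omega]
  | succ m ih =>
    intro k hk h
    obtain ⟨j, hj, hjk, hgap⟩ := exists_next (α := α) hN k
    by_cases hjN : j = N - 1
    · refine ⟨k, le_rfl, hk, fun i h1 h2 => ?_, Or.inr (Or.inl ⟨hk, by omega, ?_⟩)⟩
      · rw [show i = k by omega]
      · rw [hgap, hjN]
    · have hle : gap α N (k + 1) ≤ gap α N k := by
        rw [hgap, ← dist_succ]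
        exact gap_le hN (by omega) (by omega)
      rcases hle.lt_or_eq with hlt | heq
      · refine ⟨k, le_rfl, hk, fun i h1 h2 => ?_, Or.inr (Or.inr ⟨by omega, ?_, hlt, j, by omega,
          hjk, hgap⟩)⟩
        · rw [show i = k by omega]
        · obtain ⟨j', hj', hj'k, hgap'⟩ := exists_next (α := α) hN (k + 1)
          rcases Nat.eq_zero_or_pos j' with h0 | h0
          · rw [hgap', h0]
          · exfalso
            obtain ⟨i, rfl⟩ : ∃ i, j' = i + 1 := ⟨j' - 1, by omega⟩
            rw [dist_succ] at hgap'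
            have := gap_le (α := α) hN (k := k) (j := i) (by omega) (by omega)
            linarith
      · obtain ⟨k', h1, h2, h3, h4⟩ := ih (k + 1) (by omega) (by omega)
        refine ⟨k', by omega, h2, fun i h5 h6 => ?_, h4⟩
        rcases Nat.eq_or_lt_of_le h5 with h7 | h7
        · rw [h7]
        · rw [h3 i (by omega) h6, heq]

/-- **The three gap theorem** (Steinhaus's conjecture; Sós, Surányi, Świerczkowski 1957/58): for
irrational `α` the `N` points `kα` modulo `1`, `0 ≤ k < N`, cut the circle into gaps of at most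
three different lengths. -/
theorem three_gap (hα : Irrational α) (hN : 2 ≤ N) :
    ((Finset.range N).image (gap α N)).card ≤ 3 := by
  classical
  have hsub : (Finset.range N).image (gap α N) ⊆ ({gap α N (N - 1)} : Finset ℝ) ∪
      ((Finset.range N).filter (P2 α N)).image (gap α N) ∪
      ((Finset.range N).filter (P3 α N)).image (gap α N) := by
    intro v hv
    obtain ⟨k, hk, rfl⟩ := Finset.mem_image.1 hv
    obtain ⟨k', h1, h2, h3, h4⟩ := chain (α := α) hN _ k (Finset.mem_range.1 hk) rfl
    have h5 := h3 k' h1 le_rfl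
    rw [Finset.mem_union, Finset.mem_union, Finset.mem_singleton, ← h5]
    rcases h4 with h4 | h4 | h4
    · exact Or.inl (Or.inl (by rw [h4]))
    · exact Or.inl (Or.inr (Finset.mem_image_of_mem _
        (Finset.mem_filter.2 ⟨Finset.mem_range.2 h2, h4⟩)))
    · exact Or.inr (Finset.mem_image_of_mem _
        (Finset.mem_filter.2 ⟨Finset.mem_range.2 h2, h4⟩))
  have c2 : (((Finset.range N).filter (P2 α N)).image (gap α N)).card ≤ 1 :=
    Finset.card_image_le.trans (Finset.card_le_one.2 fun a ha b hb =>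
      P2.unique hα hN (Finset.mem_filter.1 ha).2 (Finset.mem_filter.1 hb).2)
  have c3 : (((Finset.range N).filter (P3 α N)).image (gap α N)).card ≤ 1 :=
    Finset.card_image_le.trans (Finset.card_le_one.2 fun a ha b hb =>
      P3.unique hα hN (Finset.mem_filter.1 ha).2 (Finset.mem_filter.1 hb).2)
  refine (Finset.card_le_card hsub).trans ((Finset.card_union_le _ _).trans ?_)
  have c1 := Finset.card_union_le ({gap α N (N - 1)} : Finset ℝ)
    (((Finset.range N).filter (P2 α N)).image (gap α N))
  rw [Finset.card_singleton] at c1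
  omega

theorem gap_pos (hα : Irrational α) (hN : 2 ≤ N) (k : ℕ) : 0 < gap α N k := by
  obtain ⟨j, -, hjk, h⟩ := exists_next (α := α) hN k
  rw [h]
  exact dist_pos hα hjk

/-- The exceptional gap of the third kind is the sum of the two others. -/
theorem P3.sum (hα : Irrational α) (hN : 2 ≤ N) {p : ℕ} (h : P3 α N p) :
    ∃ q, P2 α N q ∧ gap α N p = gap α N (N - 1) + gap α N q := by
  obtain ⟨hp, h0, hlt, j, hj, hjp, hgap⟩ := id h
  -- the translate of the gap
  have h1 : gap α N p = dist α (p + 1) (j + 1) := by rw [dist_succ, hgap]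
  have h2 : dist α (p + 1) (j + 1) = dist α (p + 1) 0 + dist α 0 (j + 1) :=
    dist_eq_add' (by rw [← h0, ← h1]; exact hlt.le)
  have h3 : gap α N 0 = dist α 0 (j + 1) := by
    refine le_antisymm (gap_le hN hj (by omega)) ?_
    obtain ⟨i, hi, hi0, hgi⟩ := exists_next (α := α) hN 0
    rw [hgi]
    by_contra hlt'
    rw [not_le] at hlt'
    obtain ⟨l, rfl⟩ : ∃ l, i = l + 1 := ⟨i - 1, by omega⟩
    have h4 : dist α (p + 1) (l + 1) = dist α (p + 1) 0 + dist α 0 (l + 1) := by
      rw [dist, Int.fract_eq_iff]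
      have e1 : 0 ≤ dist α (p + 1) 0 := Int.fract_nonneg _
      have e2 : 0 ≤ dist α 0 (l + 1) := Int.fract_nonneg _
      have e3 : dist α (p + 1) (j + 1) < 1 := Int.fract_lt_one _
      refine ⟨by linarith, by linarith, ?_⟩
      refine ⟨⌊((0 : ℕ) - ((p + 1 : ℕ) : ℝ)) * α⌋ + ⌊(((l + 1 : ℕ) : ℝ) - (0 : ℕ)) * α⌋, ?_⟩
      have e4 := Int.floor_add_fract (((0 : ℕ) - ((p + 1 : ℕ) : ℝ)) * α)
      have e5 := Int.floor_add_fract ((((l + 1 : ℕ) : ℝ) - (0 : ℕ)) * α)
      rw [dist, dist]
      push_cast at e4 e5 ⊢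
      linarith
    have h5 : l ≠ p := by
      rintro rfl
      have h6 : dist α (l + 1) (l + 1) = 0 := by simp [dist]
      rw [h6] at h4
      have e1 : 0 < dist α (l + 1) 0 := dist_pos hα (by omega)
      have e2 : 0 ≤ dist α 0 (l + 1) := Int.fract_nonneg _
      linarith
    have h6 := gap_le (α := α) hN (k := p) (j := l) (by omega) h5
    rw [← dist_succ p l, h4, h1, h2] at h6
    linarith
  have hsum : gap α N p = gap α N (p + 1) + gap α N 0 := by rw [h1, h2, h0, h3]
  have hpos1 := gap_pos hα hN (p + 1)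
  have hpos0 := gap_pos hα hN 0
  -- the chain of `0` ends at the gap before the last point
  obtain ⟨q, _, hq, hq1, hq2⟩ := chain (α := α) hN _ 0 (by omega) rfl
  have hqp : q < p := by
    by_contra hqp
    have := hq1 p (by omega) (by omega)
    linarith
  have hq3 : P2 α N q := by
    rcases hq2 with h4 | h4 | h4
    · omega
    · exact h4
    · have := P3.unique hα hN h4 h
      omega
  -- the chain of `p + 1` ends at the last point
  obtain ⟨r, hr0, hr, hr1, hr2⟩ := chain (α := α) hN _ (p + 1) hp rfl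
  have hr3 : r = N - 1 := by
    rcases hr2 with h4 | h4 | h4
    · exact h4
    · have := P2.unique hα hN h4 hq3
      omega
    · have := P3.unique hα hN h4 h
      omega
  refine ⟨q, hq3, ?_⟩
  have e1 := hq1 q (by omega) le_rfl
  have e2 := hr1 r hr0 le_rfl
  rw [hr3] at e2
  rw [hsum, e1, e2]

/-- If there are three different lengths then the largest one is the sum of the two others. -/
theorem three_gap_sum (hα : Irrational α) (hN : 2 ≤ N) {x y z : ℕ} (hx : x < N) (hy : y < N)
    (hz : z < N) (hxy : gap α N x < gap α N y) (hyz : gap α N y < gap α N z) :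
    gap α N z = gap α N x + gap α N y := by
  have hval : ∀ k, k < N → gap α N k = gap α N (N - 1) ∨ (∃ q, P2 α N q ∧ gap α N k = gap α N q) ∨
      ∃ p, P3 α N p ∧ gap α N k = gap α N p := by
    intro k hk
    obtain ⟨k', h1, h2, h3, h4⟩ := chain (α := α) hN _ k hk rfl
    have h5 := (h3 k' h1 le_rfl).symm
    rcases h4 with h4 | h4 | h4
    · exact Or.inl (by rw [h5, h4])
    · exact Or.inr (Or.inl ⟨k', h4, h5⟩)
    · exact Or.inr (Or.inr ⟨k', h4, h5⟩)
  by_cases h : ∃ p, P3 α N p
  · obtain ⟨p, hp⟩ := h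
    obtain ⟨q, hq, hpq⟩ := hp.sum hα hN
    have hpos1 := gap_pos hα hN (N - 1)
    have hpos2 := gap_pos hα hN q
    have hval' : ∀ k, k < N → gap α N k = gap α N (N - 1) ∨ gap α N k = gap α N q ∨
        gap α N k = gap α N p := by
      intro k hk
      rcases hval k hk with h1 | ⟨q', hq', h1⟩ | ⟨p', hp', h1⟩
      · exact Or.inl h1
      · rw [P2.unique hα hN hq' hq] at h1
        exact Or.inr (Or.inl h1)
      · rw [P3.unique hα hN hp' hp] at h1
        exact Or.inr (Or.inr h1)
    rcases hval' x hx with h1 | h1 | h1 <;> rcases hval' y hy with h2 | h2 | h2 <;>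
      rcases hval' z hz with h3 | h3 | h3 <;> linarith
  · exfalso
    have hval' : ∀ k, k < N → gap α N k = gap α N (N - 1) ∨
        ∃ q, P2 α N q ∧ gap α N k = gap α N q := by
      intro k hk
      rcases hval k hk with h1 | h1 | ⟨p', hp', h1⟩
      · exact Or.inl h1
      · exact Or.inr h1
      · exact absurd ⟨p', hp'⟩ h
    rcases hval' x hx with h1 | ⟨q, hq, h1⟩ <;> rcases hval' y hy with h2 | ⟨q', hq', h2⟩ <;>
      rcases hval' z hz with h3 | ⟨q'', hq'', h3⟩
    · linarith
    · linarith
    · linarith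
    · rw [P2.unique hα hN hq' hq''] at h2
      linarith
    · linarith
    · rw [P2.unique hα hN hq hq''] at h1
      linarith
    · rw [P2.unique hα hN hq hq'] at h1
      linarith
    · rw [P2.unique hα hN hq hq'] at h1
      linarith

end Fermat.Agent.Cor.Gap
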